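import Mathlib

/-!
# Row LT, tower T6, leaf T6.23 `ArchInt` -- SPEC (owner helper189)

OFF-MAIN.  Definitions and frozen Props only, Mathlib only.  No hole, nothing assumed.

INTEGRATION FORMULAS (Iwasawa and polar) on `GL₂(ℝ)` (component `det > 0`) and on `GL₂(ℂ)` for an
ARBITRARY Haar measure, as IDENTITIES OF MEASURES (so that every integral / lower integral formula
follows by `integral_map`, `lintegral_map`, Fubini):

* `IwasawaRC` : `μ|_{det > 0} = c • (iwaR)_* (du₁ du₂ dx dθ)`, `iwaR (u₁, u₂, x, θ) = diag(e^{u₁}, e^{u₂}) n(x) k_θ`,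
  `θ ∈ (0, 2π]`;
* `PolarRC`   : `μ|_{det > 0} = c • (polR)_* (dr dθ₁ (sinh t dt) dθ₂)`,
  `polR (r, θ₁, t, θ₂) = e^r k_{θ₁} diag(e^{t/2}, e^{-t/2}) k_{θ₂}`, `t > 0`, `θ₁, θ₂ ∈ (0, 2π]`
  (each element is hit twice: `(θ₁ + π, θ₂ + π)`; the constant absorbs it);
* `U2HaarC`   : there is a probability measure `κ` on `GL₂(ℂ)` carried by `U(2)`, invariant under left and right
  translations by `U(2)` and under inversion (`IsU2Haar κ`; it is unique);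
* `IwasawaCC` : `μ' = c • (iwaC)_* (du₁ du₂ dw dκ)`, `iwaC (u₁, u₂, w, k) = diag(e^{u₁}, e^{u₂}) n(w) k`;
* `PolarCC`   : `μ' = c • (polC)_* (dr dκ (sinh² d dd) dκ)`, `polC (r, k, d, k') = e^r k diag(e^{d/2}, e^{-d/2}) k'`.
* `RightInvRC`, `RightInvCC` : every Haar measure of `GL₂(ℝ)`, `GL₂(ℂ)` is right invariant and inversion invariant.

The other component of `GL₂(ℝ)`: `μ|_{det < 0}` is the image of `μ|_{det > 0}` under `g ↦ epsR * g`
(left invariance), `epsR = diag(-1, 1)`.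

Conventions: `k_θ = !![cos θ, -sin θ; sin θ, cos θ]` (as `wtChar` of `T6/SpecArch.lean`),
`n(x) = !![1, x; 0, 1]`; the σ-algebra of `GL₂` is `borel _`, passed explicitly as in `T6/SpecArch.lean`.
-/

set_option autoImplicit false

open MeasureTheory
open scoped Matrix ENNReal

noncomputable section

namespace Fermat.Agent.LT.T6.H189

/-! ## 1. The real group -/

/-- `diag(e^{u₁}, e^{u₂}) ∈ GL₂(ℝ)`. -/
def dgR (u₁ u₂ : ℝ) : GL (Fin 2) ℝ :=
  Matrix.GeneralLinearGroup.mkOfDetNeZero !![Real.exp u₁, 0; 0, Real.exp u₂]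
    (by simp [Matrix.det_fin_two, Real.exp_ne_zero])

/-- `n(x) = !![1, x; 0, 1] ∈ GL₂(ℝ)`. -/
def unR (x : ℝ) : GL (Fin 2) ℝ :=
  Matrix.GeneralLinearGroup.mkOfDetNeZero !![1, x; 0, 1] (by simp [Matrix.det_fin_two])

/-- The rotation `k_θ = !![cos θ, -sin θ; sin θ, cos θ] ∈ SO(2)`. -/
def rotR (θ : ℝ) : GL (Fin 2) ℝ :=
  Matrix.GeneralLinearGroup.mkOfDetNeZero
    !![Real.cos θ, -Real.sin θ; Real.sin θ, Real.cos θ]
    (by
      have h := Real.cos_sq_add_sin_sq θ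
      simp only [Matrix.det_fin_two_of]
      intro h0
      nlinarith [h, h0])

/-- `epsR = diag(-1, 1)`. -/
def epsR : GL (Fin 2) ℝ :=
  Matrix.GeneralLinearGroup.mkOfDetNeZero !![-1, 0; 0, 1] (by simp [Matrix.det_fin_two])

/-- The positive scalar `e^r`. -/
def sclR (r : ℝ) : GL (Fin 2) ℝ := dgR r r

/-- `a_t = diag(e^{t/2}, e^{-t/2})`. -/
def atR (t : ℝ) : GL (Fin 2) ℝ := dgR (t / 2) (-(t / 2))

/-- The Iwasawa parametrisation `(u₁, u₂, x, θ) ↦ diag(e^{u₁}, e^{u₂}) n(x) k_θ`. -/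
def iwaR (p : ℝ × ℝ × ℝ × ℝ) : GL (Fin 2) ℝ := dgR p.1 p.2.1 * unR p.2.2.1 * rotR p.2.2.2

/-- The polar parametrisation `(r, θ₁, t, θ₂) ↦ e^r k_{θ₁} a_t k_{θ₂}`. -/
def polR (p : ℝ × ℝ × ℝ × ℝ) : GL (Fin 2) ℝ := sclR p.1 * rotR p.2.1 * atR p.2.2.1 * rotR p.2.2.2

/-- The measure `dθ` on `(0, 2π]`. -/
def angM : Measure ℝ := volume.restrict (Set.Ioc 0 (2 * Real.pi))

/-- The measure `sinh t dt` on `(0, ∞)`. -/
def radMR : Measure ℝ :=
  (volume.restrict (Set.Ioi (0 : ℝ))).withDensity fun t => ENNReal.ofReal (Real.sinh t)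

/-- The measure `sinh² d dd` on `(0, ∞)`. -/
def radMC : Measure ℝ :=
  (volume.restrict (Set.Ioi (0 : ℝ))).withDensity fun t => ENNReal.ofReal (Real.sinh t ^ 2)

/-- The measure `du₁ du₂ dx dθ` of the Iwasawa coordinates. -/
def iwaMR : Measure (ℝ × ℝ × ℝ × ℝ) := volume.prod (volume.prod (volume.prod angM))

/-- The measure `dr dθ₁ (sinh t dt) dθ₂` of the polar coordinates. -/
def polMR : Measure (ℝ × ℝ × ℝ × ℝ) := volume.prod (angM.prod (radMR.prod angM))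

/-- The component `det > 0` of `GL₂(ℝ)`. -/
def posR : Set (GL (Fin 2) ℝ) := {g | 0 < (g : Matrix (Fin 2) (Fin 2) ℝ).det}

/-- **T6.23 (a): the Iwasawa integration formula on `GL₂(ℝ)⁺`.** -/
def IwasawaRC : Prop :=
  ∀ μ : @Measure (GL (Fin 2) ℝ) (borel _), @Measure.IsHaarMeasure _ _ _ (borel _) μ →
    ∃ c : ℝ≥0∞, c ≠ 0 ∧ c ≠ ⊤ ∧
      @Measure.restrict _ (borel _) μ posR = c • @Measure.map _ _ _ (borel _) iwaR iwaMR

/-- **T6.23 (b): the polar integration formula on `GL₂(ℝ)⁺`.** -/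
def PolarRC : Prop :=
  ∀ μ : @Measure (GL (Fin 2) ℝ) (borel _), @Measure.IsHaarMeasure _ _ _ (borel _) μ →
    ∃ c : ℝ≥0∞, c ≠ 0 ∧ c ≠ ⊤ ∧
      @Measure.restrict _ (borel _) μ posR = c • @Measure.map _ _ _ (borel _) polR polMR

/-- **T6.23 (e): `GL₂(ℝ)` is unimodular**: every Haar measure is right invariant and inversion
invariant. -/
def RightInvRC : Prop :=
  ∀ μ : @Measure (GL (Fin 2) ℝ) (borel _), @Measure.IsHaarMeasure _ _ _ (borel _) μ →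
    (∀ g : GL (Fin 2) ℝ, @Measure.map _ _ (borel _) (borel _) (fun x => x * g) μ = μ) ∧
      @Measure.map _ _ (borel _) (borel _) (fun x : GL (Fin 2) ℝ => x⁻¹) μ = μ

/-! ## 2. The complex group -/

/-- `diag(e^{u₁}, e^{u₂}) ∈ GL₂(ℂ)` (`u₁, u₂` real). -/
def dgC (u₁ u₂ : ℝ) : GL (Fin 2) ℂ :=
  Matrix.GeneralLinearGroup.mkOfDetNeZero !![(Real.exp u₁ : ℂ), 0; 0, (Real.exp u₂ : ℂ)]
    (by
      simp only [Matrix.det_fin_two_of, mul_zero, sub_zero]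
      exact mul_ne_zero (by exact_mod_cast Real.exp_ne_zero u₁)
        (by exact_mod_cast Real.exp_ne_zero u₂))

/-- `n(w) = !![1, w; 0, 1] ∈ GL₂(ℂ)`. -/
def unC (w : ℂ) : GL (Fin 2) ℂ :=
  Matrix.GeneralLinearGroup.mkOfDetNeZero !![1, w; 0, 1] (by simp [Matrix.det_fin_two])

/-- The positive scalar `e^r` in `GL₂(ℂ)`. -/
def sclC (r : ℝ) : GL (Fin 2) ℂ := dgC r r

/-- `a_d = diag(e^{d/2}, e^{-d/2})` in `GL₂(ℂ)`. -/
def atC (d : ℝ) : GL (Fin 2) ℂ := dgC (d / 2) (-(d / 2))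

/-- `U(2)` as a subset of `GL₂(ℂ)`. -/
def U2 : Set (GL (Fin 2) ℂ) :=
  {k | (k : Matrix (Fin 2) (Fin 2) ℂ) * (k : Matrix (Fin 2) (Fin 2) ℂ).conjTranspose = 1}

/-- `κ` is THE Haar probability measure of `U(2)`, as a measure on `GL₂(ℂ)`. -/
structure IsU2Haar (κ : @Measure (GL (Fin 2) ℂ) (borel _)) : Prop where
  prob : κ Set.univ = 1
  supp : κ U2ᶜ = 0
  left : ∀ k ∈ U2, @Measure.map _ _ (borel _) (borel _) (fun x => k * x) κ = κ
  right : ∀ k ∈ U2, @Measure.map _ _ (borel _) (borel _) (fun x => x * k) κ = κ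
  inv : @Measure.map _ _ (borel _) (borel _) (fun x : GL (Fin 2) ℂ => x⁻¹) κ = κ

/-- The Iwasawa parametrisation `(u₁, u₂, w, k) ↦ diag(e^{u₁}, e^{u₂}) n(w) k`. -/
def iwaC (p : ℝ × ℝ × ℂ × GL (Fin 2) ℂ) : GL (Fin 2) ℂ := dgC p.1 p.2.1 * unC p.2.2.1 * p.2.2.2

/-- The polar parametrisation `(r, k, d, k') ↦ e^r k a_d k'`. -/
def polC (p : ℝ × GL (Fin 2) ℂ × ℝ × GL (Fin 2) ℂ) : GL (Fin 2) ℂ :=
  sclC p.1 * p.2.1 * atC p.2.2.1 * p.2.2.2

/-- The measure `du₁ du₂ dw dκ` of the Iwasawa coordinates (Borel σ-algebra on `GL₂(ℂ)`). -/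
def iwaMC (κ : @Measure (GL (Fin 2) ℂ) (borel _)) :
    @Measure (ℝ × ℝ × ℂ × GL (Fin 2) ℂ)
      (@Prod.instMeasurableSpace _ _ _ (@Prod.instMeasurableSpace _ _ _
        (@Prod.instMeasurableSpace _ _ _ (borel _)))) :=
  letI : MeasurableSpace (GL (Fin 2) ℂ) := borel _
  (volume : Measure ℝ).prod ((volume : Measure ℝ).prod ((volume : Measure ℂ).prod κ))

/-- The measure `dr dκ (sinh² d dd) dκ` of the polar coordinates. -/
def polMC (κ : @Measure (GL (Fin 2) ℂ) (borel _)) :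
    @Measure (ℝ × GL (Fin 2) ℂ × ℝ × GL (Fin 2) ℂ)
      (@Prod.instMeasurableSpace _ _ _ (@Prod.instMeasurableSpace _ _ (borel _)
        (@Prod.instMeasurableSpace _ _ _ (borel _)))) :=
  letI : MeasurableSpace (GL (Fin 2) ℂ) := borel _
  (volume : Measure ℝ).prod (κ.prod (radMC.prod κ))

/-- **T6.23 (c0): the Haar probability measure of `U(2)` exists.** -/
def U2HaarC : Prop := ∃ κ : @Measure (GL (Fin 2) ℂ) (borel _), IsU2Haar κ

/-- **T6.23 (c): the Iwasawa integration formula on `GL₂(ℂ)`.** -/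
def IwasawaCC : Prop :=
  ∀ κ : @Measure (GL (Fin 2) ℂ) (borel _), IsU2Haar κ →
  ∀ μ : @Measure (GL (Fin 2) ℂ) (borel _), @Measure.IsHaarMeasure _ _ _ (borel _) μ →
    ∃ c : ℝ≥0∞, c ≠ 0 ∧ c ≠ ⊤ ∧
      μ = c • @Measure.map _ _
        (@Prod.instMeasurableSpace _ _ _ (@Prod.instMeasurableSpace _ _ _
          (@Prod.instMeasurableSpace _ _ _ (borel _)))) (borel _) iwaC (iwaMC κ)

/-- **T6.23 (d): the polar integration formula on `GL₂(ℂ)`.** -/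
def PolarCC : Prop :=
  ∀ κ : @Measure (GL (Fin 2) ℂ) (borel _), IsU2Haar κ →
  ∀ μ : @Measure (GL (Fin 2) ℂ) (borel _), @Measure.IsHaarMeasure _ _ _ (borel _) μ →
    ∃ c : ℝ≥0∞, c ≠ 0 ∧ c ≠ ⊤ ∧
      μ = c • @Measure.map _ _
        (@Prod.instMeasurableSpace _ _ _ (@Prod.instMeasurableSpace _ _ (borel _)
          (@Prod.instMeasurableSpace _ _ _ (borel _)))) (borel _) polC (polMC κ)

/-- **T6.23 (e'): `GL₂(ℂ)` is unimodular.** -/
def RightInvCC : Prop :=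
  ∀ μ : @Measure (GL (Fin 2) ℂ) (borel _), @Measure.IsHaarMeasure _ _ _ (borel _) μ →
    (∀ g : GL (Fin 2) ℂ, @Measure.map _ _ (borel _) (borel _) (fun x => x * g) μ = μ) ∧
      @Measure.map _ _ (borel _) (borel _) (fun x : GL (Fin 2) ℂ => x⁻¹) μ = μ

/-! ## 3. The output of the leaf -/

/-- **The output of T6.23.** -/
structure ArchIntOut : Prop where
  iwaR : IwasawaRC
  polR : PolarRC
  invR : RightInvRC
  haarU : U2HaarC
  iwaC : IwasawaCC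
  polC : PolarCC
  invC : RightInvCC

end Fermat.Agent.LT.T6.H189

end
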