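import Mathlib
import Fermat.Agent.LT.T6.H189.ArchIntSpec

/-!
# Row LT, tower T6, leaf T6.23 `ArchInt` -- THE CUT (owner helper189)

OFF-MAIN.  Definitions, frozen sub-leaf Props and the PROVED top `archIntOut_of_leaves`.
Mathlib + `ArchIntSpec.lean` only.  No hole, nothing assumed.

```
ArchIntOut ⇐ RightInvRC, RightInvCC                      (L1, L1': unimodularity, modular character)
           + IwaHomeoRC, IwaHomeoCC                      (L2, L2': the Iwasawa maps are open embeddings)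
           + U2CompactC                                  (L3: `U(2)` is compact)
           + CircleMeasC                                 (L4: `exp_* dθ = 2π · Haar` on the circle)
           + CartanRC, CartanCC                          (L6, L6': `g = e^r k₁ a_t k₂`, `t = arcosh ρ(g)`)
           + AbelAreaRC, AbelAreaCC                      (L7, L7': two-variable calculus)
           + IwaOfRC, IwaOfCC, U2HaarOfC, PolOfRC, PolOfCC   (A1-A5: the assemblies)
```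

## Routes

* A1/A2 (Iwasawa): `H = B × K` with `B = ℝ × ℝ × 𝕜`, group law `(v, y) (u, x) = (v + u, x + e^{u₂ - u₁} y)`
  (`ι (u, x) = diag(e^{u₁}, e^{u₂}) n(x)` is multiplicative), Lebesgue measure is a left Haar measure of `B`
  (skew product), `Ψ (b, k) = ι b * k⁻¹` is an open embedding (L2) with `Ψ (h₀ h) = ι b₀ * Ψ h * k₀⁻¹`;
  the pull-back `μ.comap Ψ` is left invariant on `H` (left invariance of `μ` + L1), hence `= c •` Haar of `H`
  (`Measure.isMulLeftInvariant_eq_smul`), and `(μ.comap Ψ).map Ψ = μ.restrict (range Ψ)`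
  (`MeasurableEmbedding.map_comap`).
* A4/A5 (polar): for `F ≥ 0` measurable put `F̃ g = ∫⁻∫⁻ F (k₁ g k₂)`; `∫⁻ F dμ = ∫⁻ F̃ dμ` (Tonelli, L1);
  `F̃ g = F̃ (e^r a_t)`, `r = log det g / 2`, `t = arcosh ρ(g)` (L6); Iwasawa formula in the coordinates
  `r = (u₁ + u₂)/2`, `s = u₁ - u₂`: `ρ(diag n(x)) = cosh s + e^s x²/2` (real), `cosh s + e^s |w|²/2` (complex); L7.
* L7: `x = √2 e^{-s/2} v`, symmetrise `s ↦ -s`, `w = √2 sinh (s/2)`, polar coordinates in the plane;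
  L7': `w = √2 e^{-s/2} v`, polar coordinates in `ℂ`, symmetrise, integrate by parts.
  Check: `φ = e^{-ρ}` gives `2π e^{-1}` resp. `4π K₁(1)` on both sides.
-/

set_option autoImplicit false

open MeasureTheory
open scoped Matrix ENNReal

noncomputable section

namespace Fermat.Agent.LT.T6.H189

/-! ## 1. Vocabulary -/

/-- The rotation attached to a point of the unit circle: `z = e^{iθ} ↦ k_θ`. -/
def rotZ (z : Circle) : GL (Fin 2) ℝ :=
  Matrix.GeneralLinearGroup.mkOfDetNeZero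
    !![(z : ℂ).re, -(z : ℂ).im; (z : ℂ).im, (z : ℂ).re]
    (by
      have h : (z : ℂ).re * (z : ℂ).re + (z : ℂ).im * (z : ℂ).im = 1 := by
        have := Circle.normSq_coe z
        rwa [Complex.normSq_apply] at this
      simp only [Matrix.det_fin_two_of]
      intro h0
      nlinarith [h, h0])

/-- The Iwasawa map of `GL₂(ℝ)⁺` with the circle as last factor. -/
def jR (p : ℝ × ℝ × ℝ × Circle) : GL (Fin 2) ℝ := dgR p.1 p.2.1 * unR p.2.2.1 * rotZ p.2.2.2

/-- `U(2)` as a subgroup of `GL₂(ℂ)`. -/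
def U2sub : Subgroup (GL (Fin 2) ℂ) where
  carrier := U2
  one_mem' := by simp [U2]
  mul_mem' := by
    intro a b ha hb
    simp only [U2, Set.mem_ofPred_eq, Matrix.GeneralLinearGroup.coe_mul,
      Matrix.conjTranspose_mul] at ha hb ⊢
    calc (a : Matrix (Fin 2) (Fin 2) ℂ) * (b : Matrix (Fin 2) (Fin 2) ℂ) *
          ((b : Matrix (Fin 2) (Fin 2) ℂ).conjTranspose *
            (a : Matrix (Fin 2) (Fin 2) ℂ).conjTranspose)
        = (a : Matrix (Fin 2) (Fin 2) ℂ) * ((b : Matrix (Fin 2) (Fin 2) ℂ) *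
            (b : Matrix (Fin 2) (Fin 2) ℂ).conjTranspose) *
            (a : Matrix (Fin 2) (Fin 2) ℂ).conjTranspose := by
          simp only [Matrix.mul_assoc]
      _ = 1 := by rw [hb, Matrix.mul_one, ha]
  inv_mem' := by
    intro a ha
    simp only [U2, Set.mem_ofPred_eq] at ha ⊢
    have hinv : ((a⁻¹ : GL (Fin 2) ℂ) : Matrix (Fin 2) (Fin 2) ℂ)
        = (a : Matrix (Fin 2) (Fin 2) ℂ).conjTranspose := by
      have h1 : ((a⁻¹ : GL (Fin 2) ℂ) : Matrix (Fin 2) (Fin 2) ℂ)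
          * (a : Matrix (Fin 2) (Fin 2) ℂ) = 1 := by
        rw [← Matrix.GeneralLinearGroup.coe_mul, inv_mul_cancel]; rfl
      calc ((a⁻¹ : GL (Fin 2) ℂ) : Matrix (Fin 2) (Fin 2) ℂ)
          = ((a⁻¹ : GL (Fin 2) ℂ) : Matrix (Fin 2) (Fin 2) ℂ) *
              ((a : Matrix (Fin 2) (Fin 2) ℂ) * (a : Matrix (Fin 2) (Fin 2) ℂ).conjTranspose) := by
            rw [ha, Matrix.mul_one]
        _ = (a : Matrix (Fin 2) (Fin 2) ℂ).conjTranspose := by
            rw [← Matrix.mul_assoc, h1, Matrix.one_mul]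
    rw [hinv, Matrix.conjTranspose_conjTranspose]
    exact mul_eq_one_comm.mp ha

/-- The Iwasawa map of `GL₂(ℂ)` with `U(2)` as last factor. -/
def jC (p : ℝ × ℝ × ℂ × U2sub) : GL (Fin 2) ℂ :=
  dgC p.1 p.2.1 * unC p.2.2.1 * (p.2.2.2 : GL (Fin 2) ℂ)

/-- `ρ(g) = tr(gᵀ g) / (2 det g)` on `GL₂(ℝ)` (`= cosh t` on `e^r k₁ a_t k₂`). -/
def rhoP (g : GL (Fin 2) ℝ) : ℝ :=
  ((g : Matrix (Fin 2) (Fin 2) ℝ).transpose * (g : Matrix (Fin 2) (Fin 2) ℝ)).trace /
    (2 * (g : Matrix (Fin 2) (Fin 2) ℝ).det)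

/-- `ρ(g) = Re tr(g* g) / (2 |det g|)` on `GL₂(ℂ)` (`= cosh d` on `e^r k₁ a_d k₂`). -/
def rhoQ (g : GL (Fin 2) ℂ) : ℝ :=
  (((g : Matrix (Fin 2) (Fin 2) ℂ).conjTranspose * (g : Matrix (Fin 2) (Fin 2) ℂ)).trace).re /
    (2 * ‖(g : Matrix (Fin 2) (Fin 2) ℂ).det‖)

/-! ## 2. The leaves -/

/-- **L2.**  The Iwasawa map of `GL₂(ℝ)⁺` is an open embedding with range `det > 0`. -/
def IwaHomeoRC : Prop := Topology.IsOpenEmbedding jR ∧ Set.range jR = posR

/-- **L2'.**  The Iwasawa map of `GL₂(ℂ)` is a homeomorphism. -/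
def IwaHomeoCC : Prop := Topology.IsOpenEmbedding jC ∧ Function.Surjective jC

/-- **L3.**  `U(2)` is compact. -/
def U2CompactC : Prop := CompactSpace U2sub

/-- **L4.**  The image of `dθ` on `(0, 2π]` under `θ ↦ e^{iθ}` is a multiple of the Haar probability
measure of the circle. -/
def CircleMeasC : Prop :=
  ∃ c : ℝ≥0∞, c ≠ 0 ∧ c ≠ ⊤ ∧
    ∀ κ : @Measure Circle (borel _), @Measure.IsHaarMeasure _ _ _ (borel _) κ →
      κ Set.univ = 1 →
      @Measure.map _ _ _ (borel _) (fun θ : ℝ => Circle.exp θ) angM = c • κ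

/-- **L6.**  Cartan decomposition of `GL₂(ℝ)⁺`, with the values of the parameters. -/
def CartanRC : Prop :=
  ∀ g : GL (Fin 2) ℝ, g ∈ posR →
    1 ≤ rhoP g ∧ ∃ θ₁ θ₂ : ℝ,
      g = sclR (Real.log (g : Matrix (Fin 2) (Fin 2) ℝ).det / 2) * rotR θ₁ *
        atR (Real.arcosh (rhoP g)) * rotR θ₂

/-- **L6'.**  Cartan decomposition of `GL₂(ℂ)`, with the values of the parameters. -/
def CartanCC : Prop :=
  ∀ g : GL (Fin 2) ℂ,
    1 ≤ rhoQ g ∧ ∃ k₁ ∈ U2, ∃ k₂ ∈ U2,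
      g = sclC (Real.log ‖(g : Matrix (Fin 2) (Fin 2) ℂ).det‖ / 2) * k₁ *
        atC (Real.arcosh (rhoQ g)) * k₂

/-- **L7.**  `∫∫ φ(cosh s + e^s x²/2) dx ds = 2π ∫_{t > 0} φ(cosh t) sinh t dt`, as an identity of
measures on `ℝ`. -/
def AbelAreaRC : Prop :=
  Measure.map (fun p : ℝ × ℝ => Real.cosh p.1 + Real.exp p.1 * p.2 ^ 2 / 2)
      (volume : Measure (ℝ × ℝ))
    = ENNReal.ofReal (2 * Real.pi) • Measure.map Real.cosh radMR

/-- **L7'.**  `∫∫ φ(cosh s + e^s |w|²/2) dw ds = 4π ∫_{d > 0} φ(cosh d) sinh² d dd`, as an identity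
of measures on `ℝ`. -/
def AbelAreaCC : Prop :=
  Measure.map (fun p : ℝ × ℂ => Real.cosh p.1 + Real.exp p.1 * ‖p.2‖ ^ 2 / 2)
      (volume : Measure (ℝ × ℂ))
    = ENNReal.ofReal (4 * Real.pi) • Measure.map Real.cosh radMC

/-! ## 3. The assemblies (leaves as well) -/

/-- **A1.**  Iwasawa formula on `GL₂(ℝ)⁺`. -/
def IwaOfRC : Prop := RightInvRC → IwaHomeoRC → CircleMeasC → IwasawaRC

/-- **A2.**  Iwasawa formula on `GL₂(ℂ)`. -/
def IwaOfCC : Prop := RightInvCC → IwaHomeoCC → U2CompactC → IwasawaCC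

/-- **A3.**  The Haar probability measure of `U(2)` as a measure on `GL₂(ℂ)`. -/
def U2HaarOfC : Prop := U2CompactC → U2HaarC

/-- **A4.**  Polar formula on `GL₂(ℝ)⁺`. -/
def PolOfRC : Prop := IwasawaRC → RightInvRC → CartanRC → AbelAreaRC → PolarRC

/-- **A5.**  Polar formula on `GL₂(ℂ)`. -/
def PolOfCC : Prop := IwasawaCC → RightInvCC → CartanCC → AbelAreaCC → PolarCC

/-! ## 4. The top -/

/-- **THE TOP of T6.23.** -/
theorem archIntOut_of_leaves (l1 : RightInvRC) (l1' : RightInvCC) (l2 : IwaHomeoRC)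
    (l2' : IwaHomeoCC) (l3 : U2CompactC) (l4 : CircleMeasC) (l6 : CartanRC) (l6' : CartanCC)
    (l7 : AbelAreaRC) (l7' : AbelAreaCC) (a1 : IwaOfRC) (a2 : IwaOfCC) (a3 : U2HaarOfC)
    (a4 : PolOfRC) (a5 : PolOfCC) : ArchIntOut where
  iwaR := a1 l1 l2 l4
  polR := a4 (a1 l1 l2 l4) l1 l6 l7
  invR := l1
  haarU := a3 l3
  iwaC := a2 l1' l2' l3
  polC := a5 (a2 l1' l2' l3) l1' l6' l7'
  invC := l1'

end Fermat.Agent.LT.T6.H189

end
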