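import Mathlib

/-!
# Row LT, tower T6, leaf T6.23 -- the generic lemma (helper189)

OFF-MAIN, Mathlib only.

`haar_restrict_range_eq_smul_map189`: let `Ψ : H → G` be an open embedding of a locally compact
second countable group `H` into a group `G` such that every left translation of `H` corresponds to
`g ↦ g₁ * g * g₂` with `g₂` preserving the Haar measure `μ` of `G` on the right.  Then
`μ.restrict (range Ψ) = c • map Ψ η` for every Haar measure `η` of `H`, `0 < c < ∞`.
-/

set_option autoImplicit false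

open MeasureTheory Set
open scoped ENNReal

namespace Fermat.Agent.LT.T6.H189

section Generic

variable {G H : Type*} [Group G] [TopologicalSpace G] [IsTopologicalGroup G]
  [MeasurableSpace G] [BorelSpace G]
  [Group H] [TopologicalSpace H] [IsTopologicalGroup H] [MeasurableSpace H] [BorelSpace H]

/-- The pull-back of a Haar measure along an equivariant open embedding is a Haar measure. -/
theorem isHaarMeasure_comap189 (μ : Measure G) [μ.IsHaarMeasure] (Ψ : H → G)
    (hΨ : Topology.IsOpenEmbedding Ψ)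
    (hequiv : ∀ h₀ : H, ∃ g₁ g₂ : G, (∀ h, Ψ (h₀ * h) = g₁ * Ψ h * g₂) ∧
      Measure.map (fun g => g * g₂) μ = μ) :
    (μ.comap Ψ).IsHaarMeasure := by
  have hme : MeasurableEmbedding Ψ := hΨ.measurableEmbedding
  have happ : ∀ S : Set H, (μ.comap Ψ) S = μ (Ψ '' S) := fun S => hme.comap_apply μ S
  refine
    { lt_top_of_isCompact := ?_
      map_mul_left_eq_self := ?_
      open_pos := ?_ }
  · intro C hC
    rw [happ]
    exact (hC.image hΨ.continuous).measure_lt_top
  · intro h₀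
    obtain ⟨g₁, g₂, hΨm, hμ⟩ := hequiv h₀
    ext S hS
    rw [Measure.map_apply (measurable_const_mul h₀) hS, happ, happ]
    have hset : Ψ '' ((fun h => h₀ * h) ⁻¹' S) = (fun g => g₁ * g * g₂) ⁻¹' (Ψ '' S) := by
      ext x
      constructor
      · rintro ⟨h, hh, rfl⟩
        exact ⟨h₀ * h, hh, hΨm h⟩
      · rintro ⟨s, hs, hsx⟩
        refine ⟨h₀⁻¹ * s, by simpa using hs, ?_⟩
        have h1 := hΨm (h₀⁻¹ * s)
        rw [mul_inv_cancel_left] at h1
        have h2 : g₁ * Ψ (h₀⁻¹ * s) * g₂ = g₁ * x * g₂ := by rw [← h1, hsx]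
        exact mul_left_cancel (mul_right_cancel h2)
    rw [hset]
    have hA : MeasurableSet (Ψ '' S) := hme.measurableSet_image.mpr hS
    have hB : MeasurableSet ((fun g => g * g₂) ⁻¹' (Ψ '' S)) := measurable_mul_const g₂ hA
    have hcomp : (fun g => g₁ * g * g₂) ⁻¹' (Ψ '' S)
        = (fun g => g₁ * g) ⁻¹' ((fun g => g * g₂) ⁻¹' (Ψ '' S)) := rfl
    rw [hcomp, measure_preimage_mul]
    have h3 : (Measure.map (fun g => g * g₂) μ) (Ψ '' S) = μ (Ψ '' S) := by rw [hμ]
    rwa [Measure.map_apply (measurable_mul_const g₂) hA] at h3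
  · intro U hU hne
    rw [happ]
    exact ((hΨ.isOpenMap U hU).measure_pos μ (hne.image Ψ)).ne'

/-- **The generic lemma.** -/
theorem haar_restrict_range_eq_smul_map189 [LocallyCompactSpace H] [SecondCountableTopology H]
    (μ : Measure G) [μ.IsHaarMeasure] (η : Measure H) [η.IsHaarMeasure] (Ψ : H → G)
    (hΨ : Topology.IsOpenEmbedding Ψ)
    (hequiv : ∀ h₀ : H, ∃ g₁ g₂ : G, (∀ h, Ψ (h₀ * h) = g₁ * Ψ h * g₂) ∧
      Measure.map (fun g => g * g₂) μ = μ) :
    ∃ c : ℝ≥0∞, c ≠ 0 ∧ c ≠ ⊤ ∧ μ.restrict (Set.range Ψ) = c • Measure.map Ψ η := by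
  have hme : MeasurableEmbedding Ψ := hΨ.measurableEmbedding
  have : (μ.comap Ψ).IsHaarMeasure := isHaarMeasure_comap189 μ Ψ hΨ hequiv
  have h1 : μ.comap Ψ = (μ.comap Ψ).haarScalarFactor η • η :=
    Measure.isMulLeftInvariant_eq_smul (μ.comap Ψ) η
  have hpos : 0 < (μ.comap Ψ).haarScalarFactor η :=
    Measure.haarScalarFactor_pos_of_isHaarMeasure (μ.comap Ψ) η
  refine ⟨((μ.comap Ψ).haarScalarFactor η : ℝ≥0∞), ?_, ENNReal.coe_ne_top, ?_⟩
  · exact_mod_cast hpos.ne'
  · rw [← hme.map_comap μ]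
    conv_lhs => rw [h1]
    rw [Measure.map_smul]
    rfl

end Generic

end Fermat.Agent.LT.T6.H189
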