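import Mathlib

/-!
# Row LT, tower T6, leaf T6.23 -- the group `B(𝕜) = (ℝ × ℝ) ⋉ 𝕜` (helper189)

OFF-MAIN, Mathlib only.

`BG189 𝕜 = (ℝ × ℝ) × 𝕜` with the group law `(v, y) * (u, x) = (v + u, x + e^{u₂ - u₁} y)`, i.e.
the law of the matrices `diag(e^{u₁}, e^{u₂}) n(x)`.  The Lebesgue measure is a left Haar measure.
-/

set_option autoImplicit false

open MeasureTheory Set
open scoped ENNReal

noncomputable section

namespace Fermat.Agent.LT.T6.H189

section Raw

variable {𝕜 : Type} [AddCommGroup 𝕜] [Module ℝ 𝕜]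

/-- The product of `B(𝕜)` on the underlying type. -/
def bmul189 (a b : (ℝ × ℝ) × 𝕜) : (ℝ × ℝ) × 𝕜 :=
  ((a.1.1 + b.1.1, a.1.2 + b.1.2), b.2 + Real.exp (b.1.2 - b.1.1) • a.2)

/-- The inverse of `B(𝕜)` on the underlying type. -/
def binv189 (a : (ℝ × ℝ) × 𝕜) : (ℝ × ℝ) × 𝕜 :=
  ((-a.1.1, -a.1.2), -(Real.exp (a.1.1 - a.1.2) • a.2))

theorem bmul_assoc189 (a b c : (ℝ × ℝ) × 𝕜) :
    bmul189 (bmul189 a b) c = bmul189 a (bmul189 b c) := by
  simp only [bmul189]
  refine Prod.ext (Prod.ext (add_assoc _ _ _) (add_assoc _ _ _)) ?_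
  simp only [smul_add, smul_smul, ← Real.exp_add]
  rw [add_assoc]
  congr 2
  ring_nf

theorem bone_mul189 (a : (ℝ × ℝ) × 𝕜) : bmul189 ((0, 0), 0) a = a := by
  simp [bmul189]

theorem bmul_one189 (a : (ℝ × ℝ) × 𝕜) : bmul189 a ((0, 0), 0) = a := by
  simp [bmul189]

theorem binv_mul189 (a : (ℝ × ℝ) × 𝕜) : bmul189 (binv189 a) a = ((0, 0), 0) := by
  simp only [bmul189, binv189]
  refine Prod.ext (Prod.ext (neg_add_cancel _) (neg_add_cancel _)) ?_
  simp only [smul_neg, smul_smul, ← Real.exp_add]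
  have : a.1.2 - a.1.1 + (a.1.1 - a.1.2) = 0 := by ring
  rw [this, Real.exp_zero, one_smul, add_neg_cancel]

end Raw

/-- The group `B(𝕜)`: the underlying type is `(ℝ × ℝ) × 𝕜`. -/
def BG189 (𝕜 : Type) : Type := (ℝ × ℝ) × 𝕜

namespace BG189

variable {𝕜 : Type}

section Alg

variable [AddCommGroup 𝕜] [Module ℝ 𝕜]

/-- The underlying triple. -/
def val189 (a : BG189 𝕜) : (ℝ × ℝ) × 𝕜 := a

/-- The element of `B(𝕜)` with a given underlying triple. -/
def mk189 (a : (ℝ × ℝ) × 𝕜) : BG189 𝕜 := a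

instance instGroup189 : Group (BG189 𝕜) where
  mul a b := bmul189 a b
  one := ((0, 0), 0)
  inv a := binv189 a
  mul_assoc := bmul_assoc189
  one_mul := bone_mul189
  mul_one := bmul_one189
  inv_mul_cancel := binv_mul189

theorem mul_def189 (a b : BG189 𝕜) : a * b = mk189 (bmul189 (val189 a) (val189 b)) := rfl

theorem one_def189 : (1 : BG189 𝕜) = mk189 ((0, 0), 0) := rfl

theorem inv_def189 (a : BG189 𝕜) : a⁻¹ = mk189 (binv189 (val189 a)) := rfl

end Alg

section Top

variable [NormedAddCommGroup 𝕜] [NormedSpace ℝ 𝕜]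

instance instTopologicalSpace189 : TopologicalSpace (BG189 𝕜) :=
  inferInstanceAs (TopologicalSpace ((ℝ × ℝ) × 𝕜))

instance instT2Space189 : T2Space (BG189 𝕜) :=
  inferInstanceAs (T2Space ((ℝ × ℝ) × 𝕜))

instance instSecondCountable189 [SecondCountableTopology 𝕜] :
    SecondCountableTopology (BG189 𝕜) :=
  inferInstanceAs (SecondCountableTopology ((ℝ × ℝ) × 𝕜))

instance instLocallyCompact189 [LocallyCompactSpace 𝕜] : LocallyCompactSpace (BG189 𝕜) :=
  inferInstanceAs (LocallyCompactSpace ((ℝ × ℝ) × 𝕜))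

instance instIsTopologicalGroup189 : IsTopologicalGroup (BG189 𝕜) where
  continuous_mul := by
    have h : Continuous fun p : ((ℝ × ℝ) × 𝕜) × ((ℝ × ℝ) × 𝕜) => bmul189 p.1 p.2 := by
      unfold bmul189
      fun_prop
    exact h
  continuous_inv := by
    have h : Continuous fun a : (ℝ × ℝ) × 𝕜 => binv189 a := by
      unfold binv189
      fun_prop
    exact h

end Top

section Meas

variable [NormedAddCommGroup 𝕜] [NormedSpace ℝ 𝕜] [MeasureSpace 𝕜] [BorelSpace 𝕜]
  [SecondCountableTopology 𝕜]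

instance instMeasurableSpace189 : MeasurableSpace (BG189 𝕜) :=
  inferInstanceAs (MeasurableSpace ((ℝ × ℝ) × 𝕜))

instance instBorelSpace189 : BorelSpace (BG189 𝕜) :=
  inferInstanceAs (BorelSpace ((ℝ × ℝ) × 𝕜))

/-- The Lebesgue measure of `B(𝕜)`. -/
def vol189 (𝕜 : Type) [NormedAddCommGroup 𝕜] [NormedSpace ℝ 𝕜] [MeasureSpace 𝕜] [BorelSpace 𝕜]
    [SecondCountableTopology 𝕜] : Measure (BG189 𝕜) :=
  ((volume : Measure (ℝ × ℝ)).prod (volume : Measure 𝕜) : Measure ((ℝ × ℝ) × 𝕜))

variable [(volume : Measure 𝕜).IsAddHaarMeasure] [SFinite (volume : Measure 𝕜)]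

/-- **The Lebesgue measure is a left Haar measure of `B(𝕜)`.** -/
instance isHaarMeasure_vol189 : (vol189 𝕜).IsHaarMeasure := by
  have hadd : ((volume : Measure (ℝ × ℝ)).prod (volume : Measure 𝕜)).IsAddHaarMeasure :=
    inferInstance
  refine
    { lt_top_of_isCompact := ?_
      map_mul_left_eq_self := ?_
      open_pos := ?_ }
  · intro C hC
    exact hadd.toIsFiniteMeasureOnCompacts.lt_top_of_isCompact hC
  · intro a
    have hpres : MeasurePreserving
        (fun p : (ℝ × ℝ) × 𝕜 => bmul189 (val189 a) p)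
        ((volume : Measure (ℝ × ℝ)).prod (volume : Measure 𝕜))
        ((volume : Measure (ℝ × ℝ)).prod (volume : Measure 𝕜)) := by
      have hf : MeasurePreserving (fun u : ℝ × ℝ => ((val189 a).1.1 + u.1, (val189 a).1.2 + u.2))
          (volume : Measure (ℝ × ℝ)) (volume : Measure (ℝ × ℝ)) := by
        have := measurePreserving_add_left (volume : Measure (ℝ × ℝ))
          ((val189 a).1.1, (val189 a).1.2)
        exact this
      refine MeasurePreserving.skew_product (g := fun (u : ℝ × ℝ) (x : 𝕜) =>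
        x + Real.exp (u.2 - u.1) • (val189 a).2) hf ?_ ?_
      · have : Continuous (Function.uncurry fun (u : ℝ × ℝ) (x : 𝕜) =>
            x + Real.exp (u.2 - u.1) • (val189 a).2) := by
          unfold Function.uncurry
          fun_prop
        exact this.measurable
      · refine Filter.Eventually.of_forall fun u => ?_
        exact (measurePreserving_add_right (volume : Measure 𝕜)
          (Real.exp (u.2 - u.1) • (val189 a).2)).map_eq
    exact hpres.map_eq
  · intro U hU hne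
    exact hadd.toIsOpenPosMeasure.open_pos U hU hne

end Meas

end BG189

end Fermat.Agent.LT.T6.H189

end
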