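import Mathlib
import Fermat.Agent.LT.T6.H189.ArchIntCut
import Fermat.Agent.LT.T6.H189.HaarEmb
import Fermat.Agent.LT.T6.H189.BGrp

/-!
# Row LT, tower T6, leaf T6.23.11 `IwaOfRC` (A1) -- helper189, registry 1477

OFF-MAIN.  `iwaOfRC189 : IwaOfRC`, i.e. `RightInvRC → IwaHomeoRC → CircleMeasC → IwasawaRC`.

`H = B(ℝ) × Circle`, `Ψ (b, z) = ι b * (rotZ z)⁻¹ = jR (u₁, u₂, x, z⁻¹)` is an equivariant open
embedding with range `det > 0`; `haar_restrict_range_eq_smul_map189` gives
`μ|_{det > 0} = c • Ψ_* (Lebesgue × κ)`, and `Ψ_* (Lebesgue × κ) = jR_* (du₁ du₂ dx dκ)`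
(`κ` is inversion invariant), `iwaR_* (du₁ du₂ dx dθ) = jR_* (du₁ du₂ dx (exp_* dθ))`.
-/

set_option autoImplicit false
set_option linter.style.haveILetI false

open MeasureTheory Set
open scoped Matrix ENNReal

noncomputable section

namespace Fermat.Agent.LT.T6.H189

/-! ## 1. Algebra -/

/-- `ι (u, x) = diag(e^{u₁}, e^{u₂}) n(x)`. -/
def iotaR189 (b : BG189 ℝ) : GL (Fin 2) ℝ :=
  dgR (BG189.val189 b).1.1 (BG189.val189 b).1.2 * unR (BG189.val189 b).2

theorem iotaR_mul189 (a b : BG189 ℝ) : iotaR189 (a * b) = iotaR189 a * iotaR189 b := by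
  apply Matrix.GeneralLinearGroup.ext
  intro i j
  simp only [iotaR189, BG189.mul_def189, BG189.val189, BG189.mk189, bmul189, dgR, unR,
    Matrix.GeneralLinearGroup.coe_mul, Matrix.GeneralLinearGroup.mkOfDetNeZero, smul_eq_mul]
  fin_cases i <;> fin_cases j <;>
    simp [Matrix.mul_apply, Fin.sum_univ_two, Real.exp_add, Real.exp_sub]
  field_simp

theorem rotZ_mul189 (z w : Circle) : rotZ (z * w) = rotZ z * rotZ w := by
  apply Matrix.GeneralLinearGroup.ext
  intro i j
  simp only [rotZ, Matrix.GeneralLinearGroup.coe_mul, Matrix.GeneralLinearGroup.mkOfDetNeZero]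
  fin_cases i <;> fin_cases j <;>
    simp [Matrix.mul_apply, Fin.sum_univ_two, Complex.mul_re, Complex.mul_im] <;> ring

theorem rotZ_one189 : rotZ 1 = 1 := by
  apply Matrix.GeneralLinearGroup.ext
  intro i j
  simp only [rotZ, Matrix.GeneralLinearGroup.mkOfDetNeZero]
  fin_cases i <;> fin_cases j <;> simp

theorem rotZ_inv189 (z : Circle) : rotZ z⁻¹ = (rotZ z)⁻¹ := by
  rw [eq_inv_iff_mul_eq_one, ← rotZ_mul189, inv_mul_cancel, rotZ_one189]

theorem rotZ_exp189 (θ : ℝ) : rotZ (Circle.exp θ) = rotR θ := by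
  apply Matrix.GeneralLinearGroup.ext
  intro i j
  simp only [rotZ, rotR, Matrix.GeneralLinearGroup.mkOfDetNeZero, Circle.coe_exp]
  fin_cases i <;> fin_cases j <;>
    simp [Complex.exp_ofReal_mul_I_re, Complex.exp_ofReal_mul_I_im]

/-- `Ψ (b, z) = ι b * (rotZ z)⁻¹`. -/
def psiR189 (h : BG189 ℝ × Circle) : GL (Fin 2) ℝ := iotaR189 h.1 * (rotZ h.2)⁻¹

theorem psiR_mul189 (h₀ h : BG189 ℝ × Circle) :
    psiR189 (h₀ * h) = iotaR189 h₀.1 * psiR189 h * (rotZ h₀.2)⁻¹ := by
  simp only [psiR189, Prod.fst_mul, Prod.snd_mul, iotaR_mul189, rotZ_mul189, mul_inv_rev,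
    mul_assoc]

/-- The change of coordinates `(((u₁, u₂), x), z) ↦ (u₁, u₂, x, z⁻¹)`. -/
def eR189 (h : BG189 ℝ × Circle) : ℝ × ℝ × ℝ × Circle :=
  ((BG189.val189 h.1).1.1, (BG189.val189 h.1).1.2, (BG189.val189 h.1).2, h.2⁻¹)

theorem psiR_eq189 : psiR189 = jR ∘ eR189 := by
  funext h
  simp only [psiR189, Function.comp_apply, jR, eR189, iotaR189, rotZ_inv189]

theorem iwaR_eq189 :
    iwaR = jR ∘ (Prod.map id (Prod.map id (Prod.map id (fun θ : ℝ => Circle.exp θ)))) := by
  funext p
  obtain ⟨a, b, c, d⟩ := p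
  simp only [iwaR, Function.comp_apply, jR, Prod.map_apply, id_eq, rotZ_exp189]

/-! ## 2. Topology -/

theorem continuous_val189 : Continuous (BG189.val189 : BG189 ℝ → (ℝ × ℝ) × ℝ) := continuous_id

theorem continuous_mk189 : Continuous (BG189.mk189 : (ℝ × ℝ) × ℝ → BG189 ℝ) := continuous_id

/-- `eR189` as a homeomorphism. -/
def eRHomeo189 : BG189 ℝ × Circle ≃ₜ ℝ × ℝ × ℝ × Circle where
  toFun := eR189
  invFun p := (BG189.mk189 ((p.1, p.2.1), p.2.2.1), p.2.2.2⁻¹)
  left_inv h := by
    obtain ⟨⟨⟨a, b⟩, c⟩, z⟩ := h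
    simp [eR189, BG189.val189, BG189.mk189]
  right_inv p := by
    obtain ⟨a, b, c, z⟩ := p
    simp [eR189, BG189.val189, BG189.mk189]
  continuous_toFun := by
    have hv : Continuous (fun h : BG189 ℝ × Circle => BG189.val189 h.1) :=
      continuous_val189.comp continuous_fst
    exact ((continuous_fst.comp continuous_fst).comp hv).prodMk
      (((continuous_snd.comp continuous_fst).comp hv).prodMk
        ((continuous_snd.comp hv).prodMk continuous_snd.inv))
  continuous_invFun := by
    have h1 : Continuous (fun p : ℝ × ℝ × ℝ × Circle => ((p.1, p.2.1), p.2.2.1)) := by fun_prop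
    have h2 : Continuous (fun p : ℝ × ℝ × ℝ × Circle => p.2.2.2⁻¹) :=
      (continuous_snd.comp (continuous_snd.comp continuous_snd)).inv
    exact (continuous_mk189.comp h1).prodMk h2

theorem psiR_isOpenEmbedding189 (h : IwaHomeoRC) : Topology.IsOpenEmbedding psiR189 := by
  rw [psiR_eq189]
  exact h.1.comp eRHomeo189.isOpenEmbedding

theorem range_psiR189 (h : IwaHomeoRC) : Set.range psiR189 = posR := by
  rw [psiR_eq189, Set.range_comp]
  have : Set.range eR189 = Set.univ := eRHomeo189.surjective.range_eq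
  rw [this, Set.image_univ, h.2]

/-! ## 3. Measures -/

/-- Reassociation of a fourfold product measure. -/
theorem map_assoc4_189 {α β γ δ : Type*} [MeasurableSpace α] [MeasurableSpace β]
    [MeasurableSpace γ] [MeasurableSpace δ] (a : Measure α) (b : Measure β) (c : Measure γ)
    (d : Measure δ) [SFinite a] [SFinite b] [SFinite c] [SFinite d] :
    Measure.map (fun p : ((α × β) × γ) × δ => (p.1.1.1, p.1.1.2, p.1.2, p.2))
      (((a.prod b).prod c).prod d) = a.prod (b.prod (c.prod d)) := by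
  have e : (fun p : ((α × β) × γ) × δ => (p.1.1.1, p.1.1.2, p.1.2, p.2))
      = (MeasurableEquiv.prodAssoc : (α × β) × (γ × δ) ≃ᵐ α × (β × (γ × δ))) ∘
        (MeasurableEquiv.prodAssoc : ((α × β) × γ) × δ ≃ᵐ (α × β) × (γ × δ)) := rfl
  rw [e, ← Measure.map_map (MeasurableEquiv.measurable _) (MeasurableEquiv.measurable _),
    Measure.prodAssoc_prod, Measure.prodAssoc_prod]

theorem measurable_val189 : Measurable (BG189.val189 : BG189 ℝ → (ℝ × ℝ) × ℝ) := measurable_id

theorem map_val189 : Measure.map (BG189.val189 : BG189 ℝ → (ℝ × ℝ) × ℝ) (BG189.vol189 ℝ)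
    = (((volume : Measure ℝ).prod (volume : Measure ℝ)).prod (volume : Measure ℝ)) :=
  Measure.map_id

theorem sfinite_angM189 : SFinite angM := by
  unfold angM
  infer_instance

/-- **T6.23.11 (A1): the Iwasawa integration formula on `GL₂(ℝ)⁺`**, from unimodularity, the
Iwasawa homeomorphism and the measure of the circle. -/
theorem iwaOfRC189 : IwaOfRC := by
  intro hinv hhomeo hcirc μ hμ
  letI : MeasurableSpace (GL (Fin 2) ℝ) := borel _
  haveI : BorelSpace (GL (Fin 2) ℝ) := ⟨rfl⟩
  letI : MeasurableSpace Circle := borel _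
  haveI : BorelSpace Circle := ⟨rfl⟩
  haveI := hμ
  obtain ⟨c₄, hc₄0, hc₄t, hc₄⟩ := hcirc
  -- the Haar probability measure of the circle
  let κ : Measure Circle := Measure.haarMeasure ⊤
  have hκ1 : κ Set.univ = 1 := by
    have := Measure.haarMeasure_self (K₀ := (⊤ : TopologicalSpace.PositiveCompacts Circle))
    simpa using this
  haveI : IsProbabilityMeasure κ := ⟨hκ1⟩
  have hκinv : Measure.map Inv.inv κ = κ := by
    haveI : κ.IsInvInvariant := Measure.IsHaarMeasure.isInvInvariant_of_regular κ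
    exact Measure.map_inv_eq_self κ
  have hcirc' : Measure.map (fun θ : ℝ => Circle.exp θ) angM = c₄ • κ :=
    hc₄ κ inferInstance hκ1
  -- the Haar measure of `H`
  let η : Measure (BG189 ℝ × Circle) := (BG189.vol189 ℝ).prod κ
  haveI : η.IsHaarMeasure := Measure.prod.instIsHaarMeasure _ _
  obtain ⟨c, hc0, hct, hc⟩ := haar_restrict_range_eq_smul_map189 μ η psiR189
    (psiR_isOpenEmbedding189 hhomeo)
    (fun h₀ => ⟨iotaR189 h₀.1, (rotZ h₀.2)⁻¹, psiR_mul189 h₀, (hinv μ hμ).1 _⟩)
  rw [range_psiR189 hhomeo] at hc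
  -- the two image measures
  have hjR : Measurable jR := hhomeo.1.continuous.measurable
  have heR : Measurable eR189 := eRHomeo189.continuous.measurable
  have hexp : Measurable (fun θ : ℝ => Circle.exp θ) := Circle.exp.continuous.measurable
  have h1 : Measure.map eR189 η
      = (volume : Measure ℝ).prod ((volume : Measure ℝ).prod ((volume : Measure ℝ).prod κ)) := by
    have hcomp : eR189 = (fun p : ((ℝ × ℝ) × ℝ) × Circle => (p.1.1.1, p.1.1.2, p.1.2, p.2)) ∘
        (Prod.map BG189.val189 Inv.inv) := rfl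
    have hm1 : Measurable (fun p : ((ℝ × ℝ) × ℝ) × Circle => (p.1.1.1, p.1.1.2, p.1.2, p.2)) := by
      fun_prop
    have hm2 : Measurable (Prod.map (BG189.val189 : BG189 ℝ → (ℝ × ℝ) × ℝ)
        (Inv.inv : Circle → Circle)) := measurable_val189.prodMap measurable_inv
    rw [hcomp, ← Measure.map_map hm1 hm2,
      ← Measure.map_prod_map _ _ measurable_val189 measurable_inv, map_val189, hκinv,
      map_assoc4_189]
  have h2 : Measure.map (Prod.map id (Prod.map id (Prod.map id (fun θ : ℝ => Circle.exp θ))))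
      iwaMR
      = c₄ • (volume : Measure ℝ).prod ((volume : Measure ℝ).prod
          ((volume : Measure ℝ).prod κ)) := by
    haveI : SFinite angM := sfinite_angM189
    unfold iwaMR
    rw [← Measure.map_prod_map _ _ measurable_id
        (measurable_id.prodMap (measurable_id.prodMap hexp)),
      ← Measure.map_prod_map _ _ measurable_id (measurable_id.prodMap hexp),
      ← Measure.map_prod_map _ _ measurable_id hexp, Measure.map_id, hcirc',
      Measure.prod_smul_right, Measure.prod_smul_right, Measure.prod_smul_right]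
  have h3 : Measure.map psiR189 η = Measure.map jR
      ((volume : Measure ℝ).prod ((volume : Measure ℝ).prod ((volume : Measure ℝ).prod κ))) := by
    rw [psiR_eq189, ← Measure.map_map hjR heR, h1]
  have h4 : Measure.map iwaR iwaMR = c₄ • Measure.map jR
      ((volume : Measure ℝ).prod ((volume : Measure ℝ).prod ((volume : Measure ℝ).prod κ))) := by
    rw [iwaR_eq189, ← Measure.map_map hjR
      (measurable_id.prodMap (measurable_id.prodMap (measurable_id.prodMap hexp))), h2,
      Measure.map_smul]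
  refine ⟨c / c₄, ENNReal.div_ne_zero.mpr ⟨hc0, hc₄t⟩, ENNReal.div_ne_top hct hc₄0, ?_⟩
  rw [hc, h3, h4, smul_smul, ENNReal.div_mul_cancel hc₄0 hc₄t]

end Fermat.Agent.LT.T6.H189

end
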