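import Mathlib
import Fermat.Agent.LT.T6.H189.ArchIntCut
import Fermat.Agent.LT.T6.H189.IwaR
import Fermat.Agent.LT.T6.H972.RightInvR
import Fermat.Agent.LT.T6.H8.RightInvCC
import Fermat.Agent.LT.T6.H569.IwaHomeoR
import Fermat.Agent.LT.T6.H905.IwaHomeoC
import Fermat.Agent.LT.T6.H965.U2Compact
import Fermat.Agent.LT.T6.H79.CircleMeas
import Fermat.Agent.LT.T6.H281.CartanR
import Fermat.Agent.LT.T6.H514.CartanCC
import Fermat.Agent.LT.T6.H127.AbelAreaR
import Fermat.Agent.LT.T6.H501.AbelAreaC
import Fermat.Agent.LT.T6.H848.IwaC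
import Fermat.Agent.LT.T6.H216.U2HaarOf

/-!
# Row LT, tower T6, leaf T6.23 `ArchInt` -- the closure so far (owner helper189)

OFF-MAIN.  Everything except the two polar assemblies A4 (`PolOfRC`) and A5 (`PolOfCC`) is closed:
the Iwasawa formulas, unimodularity and the Haar measure of `U(2)` are UNCONDITIONAL.
-/

set_option autoImplicit false

namespace Fermat.Agent.LT.T6.H189

/-- **Unimodularity of `GL₂(ℝ)`**, unconditional. -/
theorem rightInvRC189 : RightInvRC := Fermat.Agent.LT.T6.H972.rightInvRC972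

/-- **Unimodularity of `GL₂(ℂ)`**, unconditional. -/
theorem rightInvCC189 : RightInvCC := Fermat.Agent.LT.T6.H8.rightInvCC_h8

/-- **The Iwasawa integration formula on `GL₂(ℝ)⁺`**, unconditional. -/
theorem iwasawaRC189 : IwasawaRC :=
  iwaOfRC189 rightInvRC189 Fermat.Agent.LT.T6.H569.iwaHomeoRC569
    Fermat.Agent.LT.T6.H79.circleMeasC_79

/-- **The Haar probability measure of `U(2)`**, unconditional. -/
theorem u2HaarC189 : U2HaarC :=
  Fermat.Agent.LT.T6.H216.u2HaarOf216 Fermat.Agent.LT.T6.H965.u2CompactC965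

/-- **The Iwasawa integration formula on `GL₂(ℂ)`**, unconditional. -/
theorem iwasawaCC189 : IwasawaCC :=
  Fermat.Agent.LT.T6.H848.iwaOfCC848 rightInvCC189 Fermat.Agent.LT.T6.H905.iwaHomeoCC905
    Fermat.Agent.LT.T6.H965.u2CompactC965

/-- The Cartan decompositions and the calculus identities, unconditional. -/
theorem cartanRC189 : CartanRC := Fermat.Agent.LT.T6.H281.cartanRC_h281

theorem cartanCC189 : CartanCC := Fermat.Agent.LT.T6.H514.cartanCC514

theorem abelAreaRC189 : AbelAreaRC := Fermat.Agent.LT.T6.H127.abelAreaRC127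

theorem abelAreaCC189 : AbelAreaCC := Fermat.Agent.LT.H501.Ab.abelAreaCC501

/-- **T6.23 from the two polar assemblies.** -/
theorem archIntOut_of_pol189 (a4 : PolOfRC) (a5 : PolOfCC) : ArchIntOut where
  iwaR := iwasawaRC189
  polR := a4 iwasawaRC189 rightInvRC189 cartanRC189 abelAreaRC189
  invR := rightInvRC189
  haarU := u2HaarC189
  iwaC := iwasawaCC189
  polC := a5 iwasawaCC189 rightInvCC189 cartanCC189 abelAreaCC189
  invC := rightInvCC189

end Fermat.Agent.LT.T6.H189
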