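import Mathlib
import Fermat.Agent.LT.T6.H189.ArchIntPartial
import Fermat.Agent.LT.T6.H915.PolOfR
import Fermat.Agent.LT.T6.H441.PolOfC

/-!
# Row LT, tower T6, leaf T6.23 `ArchInt` -- CLOSED (owner helper189)

OFF-MAIN.  `archIntOut189 : ArchIntOut`, UNCONDITIONAL: the Iwasawa and polar integration formulas
on `GL₂(ℝ)⁺` and `GL₂(ℂ)` for an arbitrary Haar measure, unimodularity, and the Haar probability
measure of `U(2)`.

Leaves: helper972 (L1), helper8 (L1'), helper569 (L2), helper905 (L2'), helper965 (L3),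
helper79 (L4), helper281 (L6), helper514 (L6'), helper127 (L7), helper501 (L7'), helper189 (A1),
helper848 (A2), helper216 (A3), helper915 (A4), helper441 (A5).
-/

set_option autoImplicit false

namespace Fermat.Agent.LT.T6.H189

/-- **The polar integration formula on `GL₂(ℝ)⁺`**, unconditional. -/
theorem polarRC189 : PolarRC :=
  Fermat.Agent.LT.T6.H915.polOfRC915 iwasawaRC189 rightInvRC189 cartanRC189 abelAreaRC189

/-- **The polar integration formula on `GL₂(ℂ)`**, unconditional. -/
theorem polarCC189 : PolarCC :=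
  Fermat.Agent.LT.T6.H441.polOfCC441 iwasawaCC189 rightInvCC189 cartanCC189 abelAreaCC189

/-- **T6.23 `ArchInt`, CLOSED.** -/
theorem archIntOut189 : ArchIntOut :=
  archIntOut_of_pol189 Fermat.Agent.LT.T6.H915.polOfRC915 Fermat.Agent.LT.T6.H441.polOfCC441

end Fermat.Agent.LT.T6.H189
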